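import Mathlib

/-!
# Folded multiples modulo `2m`

Arithmetic for the component indices of the multiples of a point: the absolute index of `n·P` in
`ℤ / 2m` modulo sign, represented in `(0, m)`.
-/

set_option autoImplicit false

namespace Fermat.Agent.EC.AtP

/-- `x ≡ ± y` modulo `2m`. -/
def FoldEq (m x y : ℤ) : Prop := 2 * m ∣ x - y ∨ 2 * m ∣ x + y

theorem FoldEq.eq {m x y : ℤ} (h : FoldEq m x y) (hx : 0 < x) (hxm : x < m) (hy : 0 ≤ y)
    (hym : y ≤ m) : x = y := by
  rcases h with h | h
  · exact sub_eq_zero.mp (Int.eq_zero_of_abs_lt_dvd h (by rw [abs_lt]; constructor <;> omega))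
  · have := Int.eq_zero_of_abs_lt_dvd h (by rw [abs_lt]; constructor <;> omega)
    omega

theorem FoldEq.not_zero {m x : ℤ} (hx : 0 < x) (hxm : x < m) : ¬ FoldEq m x 0 := fun h =>
  hx.ne' (h.eq hx hxm le_rfl (hx.trans hxm).le)

theorem FoldEq.trans {m x y z : ℤ} (h : FoldEq m x y) (h' : FoldEq m y z) : FoldEq m x z := by
  rcases h with h | h <;> rcases h' with h' | h'
  · exact Or.inl (by have := dvd_add h h'; rwa [sub_add_sub_cancel] at this)
  · exact Or.inr (by have := dvd_add h h'; rwa [show x - y + (y + z) = x + z by ring] at this)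
  · exact Or.inr (by have := dvd_sub h h'; rwa [show x + y - (y - z) = x + z by ring] at this)
  · exact Or.inl (by have := dvd_sub h h'; rwa [show x + y - (y + z) = x - z by ring] at this)

/-- One step of the index recursion: `c, d, e` are the indices of `nP`, `(n-1)P`, `(n+1)P`, `a`
that of `P`, and `k, l` the valuations of `Xn - X1`, `Xn X1 - α₄`. -/
theorem fold_step {m a c d e k l q : ℤ} (ha : 0 < a) (ham : a < m) (hc : 0 < c) (hcm : c < m)
    (hd : 0 < d) (hdm : d < m) (he : 0 < e) (hem : e < m)
    (hkne : c ≠ a → k = min a c) (hkeq : c = a → a ≤ k)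
    (hlne : a + c ≠ m → l = min (a + c) m) (hleq : a + c = m → m ≤ l)
    (hsum : e + d = 2 * l - 2 * k) (hqc : FoldEq m c q) (hqd : FoldEq m d (q - a)) :
    FoldEq m e (q + a) := by
  by_cases hca : c = a
  · exfalso
    subst hca
    have hk := hkeq rfl
    rcases hqc with hq | hq
    · refine FoldEq.not_zero hd hdm (hqd.trans (Or.inl ?_))
      rw [sub_zero, ← neg_sub]; exact dvd_neg.mpr hq
    · have h2 : FoldEq m d (2 * c) := hqd.trans (Or.inr (by
        rwa [show q - c + 2 * c = c + q by ring]))
      rcases lt_trichotomy (2 * c) m with h | h | h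
      · have := h2.eq hd hdm (by omega) h.le
        have := hlne (by omega)
        omega
      · have := h2.eq hd hdm (by omega) h.le
        omega
      · have := (h2.trans (y := 2 * c) (z := 2 * m - 2 * c)
          (Or.inr ⟨1, by ring⟩)).eq hd hdm (by omega) (by omega)
        have := hlne (by omega)
        omega
  · have hk := hkne hca
    -- the folded sum and difference of `a` and `c`
    obtain ⟨δ, hδ, hδa, hδb⟩ : ∃ δ, FoldEq m (c - a) δ ∧ 0 ≤ δ ∧ δ = max a c - min a c := by
      refine ⟨max a c - min a c, ?_, by omega, rfl⟩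
      rcases le_total a c with h | h
      · exact Or.inl ⟨0, by rw [max_eq_right h, min_eq_left h]; ring⟩
      · exact Or.inr ⟨0, by rw [max_eq_left h, min_eq_right h]; ring⟩
    have hmain : ∀ σ, FoldEq m (c + a) σ → σ = min (a + c) (2 * m - (a + c)) →
        FoldEq m e (q + a) := by
      intro σ hσ hσe
      rcases hqc with hq | hq
      · have h1 : FoldEq m d δ :=
          (hqd.trans (Or.inl (by rw [show q - a - (c - a) = -(c - q) by ring]; exact dvd_neg.mpr hq))).trans hδ
        have := h1.eq hd hdm hδa (by omega)
        rcases eq_or_ne (a + c) m with h | h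
        · have := hleq h; omega
        · have := hlne h
          have he' : e = σ := by omega
          subst he'
          refine FoldEq.trans ?_ (Or.inl (show 2 * m ∣ (c + a) - (q + a) by
            rwa [add_sub_add_right_eq_sub]))
          rcases hσ with h' | h'
          · exact Or.inl (by rw [← neg_sub]; exact dvd_neg.mpr h')
          · exact Or.inr (by rwa [add_comm e (c + a)])
      · have h1 : FoldEq m d σ :=
          (hqd.trans (Or.inr (by rwa [show q - a + (c + a) = c + q by ring]))).trans hσ
        have := h1.eq hd hdm (by omega) (by omega)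
        rcases eq_or_ne (a + c) m with h | h
        · omega
        · have := hlne h
          have he' : e = δ := by omega
          subst he'
          refine FoldEq.trans ?_ (Or.inr (show 2 * m ∣ (c - a) + (q + a) by
            rwa [show c - a + (q + a) = c + q by ring]))
          rcases hδ with h' | h'
          · exact Or.inl (by rw [← neg_sub]; exact dvd_neg.mpr h')
          · exact Or.inr (by rwa [add_comm e (c - a)])
    rcases le_total (a + c) (2 * m - (a + c)) with h | h
    · exact hmain (a + c) (Or.inl ⟨0, by ring⟩) (min_eq_left h).symm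
    · exact hmain (2 * m - (a + c)) (Or.inr ⟨1, by ring⟩) (min_eq_right h).symm

/-- Doubling. -/
theorem fold_double {m a e l : ℤ} (_ha : 0 < a) (_ham : a < m) (hem : e < m)
    (hlne : 2 * a ≠ m → l = min (2 * a) m) (hleq : 2 * a = m → m ≤ l)
    (hsum : e + 2 * a = 2 * l) : FoldEq m e (2 * a) := by
  rcases lt_trichotomy (2 * a) m with h | h | h
  · have := hlne (by omega)
    exact Or.inl ⟨0, by omega⟩
  · have := hleq h
    omega
  · have := hlne (by omega)
    exact Or.inr ⟨1, by omega⟩

/-- The indices of the multiples of a point of order `p = 2h + 1` prime to `2m` cannot all avoid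
`0` and `m`. -/
theorem fold_contradiction {m a : ℤ} {p h : ℕ} (hph : p = 2 * h + 1) (ha : 0 < a) (ham : a < m)
    (hcop : IsCoprime (p : ℤ) (2 * m)) {R : ℤ} (h1 : FoldEq m R (h * a))
    (h2 : FoldEq m R ((h + 1) * a)) : False := by
  have key : 2 * m ∣ a ∨ 2 * m ∣ (p : ℤ) * a := by
    rcases h1 with h1 | h1 <;> rcases h2 with h2 | h2
    · left; have := dvd_sub h1 h2; rwa [show R - (h : ℤ) * a - (R - (h + 1) * a) = a by ring] at this
    · right; have := dvd_sub h2 h1
      rw [show R + ((h : ℤ) + 1) * a - (R - h * a) = (2 * h + 1) * a by ring] at this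
      rw [hph]; push_cast; exact this
    · right; have := dvd_sub h1 h2
      rw [show R + (h : ℤ) * a - (R - (h + 1) * a) = (2 * h + 1) * a by ring] at this
      rw [hph]; push_cast; exact this
    · left; have := dvd_sub h2 h1; rwa [show R + ((h : ℤ) + 1) * a - (R + h * a) = a by ring] at this
  have hd : 2 * m ∣ a := key.elim id fun h' => hcop.symm.dvd_of_dvd_mul_left h'
  have := Int.eq_zero_of_abs_lt_dvd hd (by rw [abs_lt]; constructor <;> omega)
  omega

end Fermat.Agent.EC.AtP
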