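import Fermat.Agent.EC.AtP.NodeGalois
import Fermat.Agent.EC.Reduction.Frey

/-!
# The nodes of the Frey curve and its rational points of order two
-/

set_option autoImplicit false

namespace Fermat.Agent.EC.AtP

open WeierstrassCurve Fermat.Agent.Arith Fermat.Agent.EC.Reduction
open scoped WeierstrassCurve.Affine

variable (P : FreyPackage)

instance freyInt_isElliptic : (P.freyCurveInt.map (Int.castRingHom ℚ)).IsElliptic :=
  ⟨isUnit_iff_ne_zero.mpr (by
    rw [map_Δ, eq_intCast]; exact Int.cast_ne_zero.mpr (Frey.Δ_ne_zero P))⟩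

variable {P} {A : ValuationSubring QBar} {q : ℕ}

/-- The coefficients of the Frey equation over `QBar`. -/
theorem freyQBar_coeffs :
    ((P.freyCurveInt.map (Int.castRingHom ℚ))⁄(AlgebraicClosure ℚ)).toAffine.a₁ = 1 ∧
    ((P.freyCurveInt.map (Int.castRingHom ℚ))⁄(AlgebraicClosure ℚ)).toAffine.a₃ = 0 ∧
    ((P.freyCurveInt.map (Int.castRingHom ℚ))⁄(AlgebraicClosure ℚ)).toAffine.a₆ = 0 ∧
    ((P.freyCurveInt.map (Int.castRingHom ℚ))⁄(AlgebraicClosure ℚ)).toAffine.a₂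
      = (P.freyCurveInt.a₂ : QBar) ∧
    ((P.freyCurveInt.map (Int.castRingHom ℚ))⁄(AlgebraicClosure ℚ)).toAffine.a₄
      = (P.freyCurveInt.a₄ : QBar) := by
  refine ⟨?_, ?_, ?_, ?_, ?_⟩
  · show algebraMap ℚ QBar ((Int.castRingHom ℚ) P.freyCurveInt.a₁) = 1
    simp [FreyPackage.freyCurveInt]
  · show algebraMap ℚ QBar ((Int.castRingHom ℚ) P.freyCurveInt.a₃) = 0
    simp [FreyPackage.freyCurveInt]
  · show algebraMap ℚ QBar ((Int.castRingHom ℚ) P.freyCurveInt.a₆) = 0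
    simp [FreyPackage.freyCurveInt]
  · show algebraMap ℚ QBar ((Int.castRingHom ℚ) P.freyCurveInt.a₂) = _
    simp
  · show algebraMap ℚ QBar ((Int.castRingHom ℚ) P.freyCurveInt.a₄) = _
    simp

theorem res_intCast_ne_zero (hA : A.LiesOverPrime q) (hq : q.Prime) {n : ℤ}
    (hn : ¬ (q : ℤ) ∣ n) : res A (n : QBar) ≠ 0 := by
  rw [Ne, res_eq_zero_iff (intCast_mem A n), intCast_mem_nonunits_iff hA hq]
  exact hn

/-- `(0, 0)` lies at the node when `q ∣ ab`. -/
theorem frey_node_zero (hA : A.LiesOverPrime q) (hq : q.Prime)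
    (h : (q : ℤ) ∣ P.a ∨ (q : ℤ) ∣ P.b) :
    TwoTorsionNode A ((P.freyCurveInt.map (Int.castRingHom ℚ))⁄(AlgebraicClosure ℚ)).toAffine
      0 0 := by
  obtain ⟨h1, h3, h6, h2, h4⟩ := freyQBar_coeffs (P := P)
  have hq' : Prime (q : ℤ) := Nat.prime_iff_prime_int.mp hq
  refine ⟨zero_mem A, zero_mem A, ?_, ?_, ?_, ?_⟩
  · rw [Affine.equation_iff, h6]; simp
  · rw [h3]; simp
  · simp only [nodeA₄, h4, mul_zero, zero_add, zero_pow two_ne_zero, sub_zero]
    rw [intCast_mem_nonunits_iff hA hq]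
    have h16 := Frey.sixteen_mul_a₄ P
    by_cases hq2 : q = 2
    · subst hq2
      have hb5 := Frey.two_pow_dvd_pow_b P
      obtain ⟨k, hk⟩ := hb5
      rw [hk] at h16
      exact ⟨-(P.a ^ P.p) * k,
        mul_left_cancel₀ (show (16 : ℤ) ≠ 0 by norm_num) (by push_cast; linear_combination h16)⟩
    · have hd : (q : ℤ) ∣ 2 ^ 4 * P.freyCurveInt.a₄ := by
        rw [show ((2 : ℤ) ^ 4) = 16 by norm_num, h16]
        rcases h with h | h
        · exact dvd_mul_of_dvd_left (dvd_neg.mpr (dvd_pow h P.hp0)) _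
        · exact dvd_mul_of_dvd_right (dvd_pow h P.hp0) _
      refine (hq'.dvd_mul.mp hd).resolve_left fun h2' => hq2 ?_
      have := hq'.dvd_of_dvd_pow h2'
      exact (Nat.prime_dvd_prime_iff_eq hq Nat.prime_two).mp (Int.natCast_dvd_natCast.mp this)
  · have e : ((P.freyCurveInt.map (Int.castRingHom ℚ))⁄(AlgebraicClosure ℚ)).toAffine.a₁ ^ 2
        + 4 * nodeA₂ ((P.freyCurveInt.map (Int.castRingHom ℚ))⁄(AlgebraicClosure ℚ)).toAffine 0
        = ((P.b ^ P.p - P.a ^ P.p : ℤ) : QBar) := by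
      simp only [nodeA₂, h1, h2, mul_zero, zero_add, one_pow]
      have := congrArg (Int.cast : ℤ → QBar) (Frey.four_mul_a₂ P)
      push_cast at this ⊢
      linear_combination this
    rw [e]
    refine res_intCast_ne_zero hA hq fun hd => ?_
    rcases h with h | h
    · exact Frey.not_dvd_both hq P.hgcdab h
        (hq'.dvd_of_dvd_pow ((dvd_sub_left (dvd_pow h P.hp0)).mp hd))
    · exact Frey.not_dvd_both hq P.hgcdab
        (hq'.dvd_of_dvd_pow ((dvd_sub_right (dvd_pow h P.hp0)).mp hd)) h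

/-- `(a ^ p / 4, -a ^ p / 8)` lies at the node when `q ∣ c`. -/
theorem frey_node_c (hA : A.LiesOverPrime q) (hq : q.Prime) (h : (q : ℤ) ∣ P.c) :
    TwoTorsionNode A ((P.freyCurveInt.map (Int.castRingHom ℚ))⁄(AlgebraicClosure ℚ)).toAffine
      ((P.a : QBar) ^ P.p / 4) (-((P.a : QBar) ^ P.p) / 8) := by
  obtain ⟨h1, h3, h6, h2, h4⟩ := freyQBar_coeffs (P := P)
  have hq' : Prime (q : ℤ) := Nat.prime_iff_prime_int.mp hq
  have hq2 : q ≠ 2 := by
    rintro rfl
    exact Frey.not_dvd_both hq P.hgcdbc ((ZMod.intCast_zmod_eq_zero_iff_dvd P.b 2).mp P.hb2) h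
  have hinv : ∀ k : ℕ, (((2 ^ k : ℕ) : QBar))⁻¹ ∈ A := fun k => by
    refine ((notMem_nonunits_iff (natCast_mem A _)).mp ?_).2
    rw [natCast_mem_nonunits_iff hA hq]
    exact fun hd => hq2 ((Nat.prime_dvd_prime_iff_eq hq Nat.prime_two).mp (hq.dvd_of_dvd_pow hd))
  have e2 : 4 * (P.freyCurveInt.a₂ : QBar) = (P.b : QBar) ^ P.p - 1 - (P.a : QBar) ^ P.p := by
    have := congrArg (Int.cast : ℤ → QBar) (Frey.four_mul_a₂ P)
    push_cast at this; exact this
  have e4 : 16 * (P.freyCurveInt.a₄ : QBar) = -((P.a : QBar) ^ P.p) * (P.b : QBar) ^ P.p := by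
    have := congrArg (Int.cast : ℤ → QBar) (Frey.sixteen_mul_a₄ P)
    push_cast at this; exact this
  have ec : (P.a : QBar) ^ P.p + (P.b : QBar) ^ P.p = (P.c : QBar) ^ P.p := by
    exact_mod_cast P.hFLT
  have hqa : ¬ (q : ℤ) ∣ P.a ^ P.p := fun hd =>
    Frey.not_dvd_both hq P.hgcdac (hq'.dvd_of_dvd_pow hd) h
  refine ⟨?_, ?_, ?_, ?_, ?_, ?_⟩
  · have := mul_mem (pow_mem (intCast_mem A P.a) P.p) (hinv 2)
    rw [div_eq_mul_inv]; norm_num at this ⊢; exact this
  · have := mul_mem (neg_mem (pow_mem (intCast_mem A P.a) P.p)) (hinv 3)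
    rw [div_eq_mul_inv]; norm_num at this ⊢; exact this
  · rw [Affine.equation_iff, h1, h2, h3, h4, h6]
    linear_combination (-((P.a : QBar) ^ P.p) ^ 2 / 64) * e2 - ((P.a : QBar) ^ P.p / 64) * e4
  · rw [h1, h3]; ring
  · have e : nodeA₄ ((P.freyCurveInt.map (Int.castRingHom ℚ))⁄(AlgebraicClosure ℚ)).toAffine
        ((P.a : QBar) ^ P.p / 4) (-((P.a : QBar) ^ P.p) / 8) =
        ((P.a ^ P.p * P.c ^ P.p : ℤ) : QBar) * (((2 ^ 4 : ℕ) : QBar))⁻¹ := by
      simp only [nodeA₄, h1, h2, h4]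
      push_cast
      linear_combination ((P.a : QBar) ^ P.p / 8) * e2 + (1 / 16) * e4
        + ((P.a : QBar) ^ P.p / 16) * ec
    rw [e]
    exact nonunits_mul_right ((intCast_mem_nonunits_iff hA hq _).mpr
      (dvd_mul_of_dvd_right (dvd_pow h P.hp0) _)) (hinv 4)
  · have e : ((P.freyCurveInt.map (Int.castRingHom ℚ))⁄(AlgebraicClosure ℚ)).toAffine.a₁ ^ 2
        + 4 * nodeA₂ ((P.freyCurveInt.map (Int.castRingHom ℚ))⁄(AlgebraicClosure ℚ)).toAffine
          ((P.a : QBar) ^ P.p / 4) = ((P.a ^ P.p + P.c ^ P.p : ℤ) : QBar) := by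
      simp only [nodeA₂, h1, h2]
      push_cast
      linear_combination e2 + ec
    rw [e]
    exact res_intCast_ne_zero hA hq fun hd =>
      hqa ((dvd_add_left (dvd_pow h P.hp0)).mp hd)

/-- Inertia moves points of the Frey curve within their components, at every place. -/
theorem frey_inertiaPreservesComponent (P : FreyPackage) :
    InertiaPreservesComponent P.freyCurveInt := by
  intro q hq A hA σ hσ Q
  by_cases h : (q : ℤ) ∣ P.a * P.b * P.c
  · have hq' : Prime (q : ℤ) := Nat.prime_iff_prime_int.mp hq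
    rcases hq'.dvd_mul.mp h with h | h
    · exact smul_sub_inE0_of_node (fun τ => map_zero τ) (fun τ => map_zero τ)
        (frey_node_zero hA hq (hq'.dvd_mul.mp h)) hσ Q
    · exact smul_sub_inE0_of_node (fun τ => by simp [map_ofNat]) (fun τ => by simp [map_ofNat])
        (frey_node_c hA hq h) hσ Q
  · exact smul_sub_inE0_of_good hA hq (Frey.not_dvd_Δ P hq h) Q

end Fermat.Agent.EC.AtP
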