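import Fermat.Agent.EC.AtP.FreyNodes
import Fermat.Agent.EC.AtP.Fold

/-!
# The Frey curve has no rational point of order `p`

At `2` the reduction is multiplicative with `v(Δ) = 2m`, `m = p·v₂(b) - 4` prime to `p`.  A rational
point of order `p` cannot lie in `E0` (the reduced curve has at most two nonzero rational
nonsingular points), and outside `E0` the valuations of the abscissae of its multiples are the
folded multiples of the first one in `ℤ / 2m`, which is impossible.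
-/

set_option autoImplicit false

namespace Fermat.Agent.EC.AtP

open WeierstrassCurve Fermat.Agent.Arith Fermat.Agent.EC.Reduction
open scoped WeierstrassCurve.Affine

section Identities

variable {F : Type*} [Field F] [DecidableEq F] {W : Affine F} {x₁ y₁ x₂ y₂ : F}

/-- `x(P + Q) · x(P - Q)` for a curve `y² + xy = x³ + a₂x² + a₄x`. -/
theorem addX_mul_subX (h1 : W.a₁ = 1) (h3 : W.a₃ = 0) (h6 : W.a₆ = 0)
    (e₁ : W.Equation x₁ y₁) (e₂ : W.Equation x₂ y₂) (hne : x₁ ≠ x₂) :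
    W.addX x₁ x₂ (W.slope x₁ x₂ y₁ y₂) * W.addX x₁ x₂ (W.slope x₁ x₂ y₁ (W.negY x₂ y₂))
      * (x₁ - x₂) ^ 2 = (x₁ * x₂ - W.a₄) ^ 2 := by
  have hd : x₁ - x₂ ≠ 0 := sub_ne_zero.mpr hne
  rw [Affine.equation_iff, h1, h3, h6] at e₁ e₂
  refine mul_right_cancel₀ (pow_ne_zero 2 hd) ?_
  have en : ∀ y, W.addX x₁ x₂ (W.slope x₁ x₂ y₁ y) * (x₁ - x₂) ^ 2 =
      (y₁ - y) ^ 2 + (y₁ - y) * (x₁ - x₂) - (W.a₂ + x₁ + x₂) * (x₁ - x₂) ^ 2 := by
    intro y
    rw [Affine.slope_of_X_ne hne, Affine.addX, h1]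
    field_simp
    ring
  rw [show W.addX x₁ x₂ (W.slope x₁ x₂ y₁ y₂) * W.addX x₁ x₂ (W.slope x₁ x₂ y₁ (W.negY x₂ y₂))
      * (x₁ - x₂) ^ 2 * (x₁ - x₂) ^ 2 =
      (W.addX x₁ x₂ (W.slope x₁ x₂ y₁ y₂) * (x₁ - x₂) ^ 2)
      * (W.addX x₁ x₂ (W.slope x₁ x₂ y₁ (W.negY x₂ y₂)) * (x₁ - x₂) ^ 2) by ring, en, en,
    Affine.negY, h1, h3]
  set f₁ := x₁ ^ 3 + (W.a₂ + 1 / 4) * x₁ ^ 2 + W.a₄ * x₁
  set f₂ := x₂ ^ 3 + (W.a₂ + 1 / 4) * x₂ ^ 2 + W.a₄ * x₂
  linear_combination
    (2 * (x₁ ^ 3 + W.a₂ * x₁ ^ 2 + W.a₄ * x₁) - 2 * (x₂ ^ 3 + W.a₂ * x₂ ^ 2 + W.a₄ * x₂)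
        - x₂ ^ 2 + x₁ * x₂ - 2 * (W.a₂ + x₁ + x₂) * (x₁ - x₂) ^ 2
        + (y₁ ^ 2 + x₁ * y₁ - (x₁ ^ 3 + W.a₂ * x₁ ^ 2 + W.a₄ * x₁))
        - 2 * (y₂ ^ 2 + x₂ * y₂ - (x₂ ^ 3 + W.a₂ * x₂ ^ 2 + W.a₄ * x₂))) * e₁ +
    (2 * (x₂ ^ 3 + W.a₂ * x₂ ^ 2 + W.a₄ * x₂) - 2 * (x₁ ^ 3 + W.a₂ * x₁ ^ 2 + W.a₄ * x₁)
        - x₁ ^ 2 + x₁ * x₂ - 2 * (W.a₂ + x₁ + x₂) * (x₁ - x₂) ^ 2
        + (y₂ ^ 2 + x₂ * y₂ - (x₂ ^ 3 + W.a₂ * x₂ ^ 2 + W.a₄ * x₂))) * e₂

/-- The duplication formula for a curve `y² + xy = x³ + a₂x² + a₄x`. -/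
theorem addX_double (h1 : W.a₁ = 1) (h3 : W.a₃ = 0) (h6 : W.a₆ = 0)
    (e : W.Equation x₁ y₁) (hne : y₁ ≠ W.negY x₁ y₁) :
    W.addX x₁ x₁ (W.slope x₁ x₁ y₁ y₁) *
      (x₁ * (4 * x₁ ^ 2 + (1 + 4 * W.a₂) * x₁ + 4 * W.a₄)) = (x₁ ^ 2 - W.a₄) ^ 2 := by
  have hD : y₁ - W.negY x₁ y₁ ≠ 0 := sub_ne_zero.mpr hne
  rw [Affine.equation_iff, h1, h3, h6] at e
  rw [show x₁ * (4 * x₁ ^ 2 + (1 + 4 * W.a₂) * x₁ + 4 * W.a₄) = (y₁ - W.negY x₁ y₁) ^ 2 by
      rw [Affine.negY, h1, h3]; linear_combination (-4) * e,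
    Affine.slope_of_Y_ne rfl hne, Affine.addX, h1]
  field_simp
  rw [Affine.negY, h1, h3]
  linear_combination -(1 + 4 * W.a₂ + 8 * x₁) * e

end Identities

section RatTwo

variable {A : ValuationSubring QBar}

theorem padicValRat_pos_of_mem_nonunits (hA : A.LiesOverPrime 2) {r : ℚ} (hr : r ≠ 0)
    (h : (r : QBar) ∈ A.nonunits) : 0 < padicValRat 2 r := by
  have : Fact (Nat.Prime 2) := ⟨Nat.prime_two⟩
  have hd : ¬ 2 ∣ r.den := (ratCast_mem_iff hA Nat.prime_two r).mp (mem_of_mem_nonunits h)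
  have hn : ((2 : ℕ) : ℤ) ∣ r.num := by
    rw [← intCast_mem_nonunits_iff hA Nat.prime_two]
    have e : (r.num : QBar) = (r : QBar) * (r.den : QBar) := by
      rw [Rat.cast_def, div_mul_cancel₀ _ (Nat.cast_ne_zero.mpr r.den_nz)]
    rw [e]; exact nonunits_mul_right h (natCast_mem A _)
  rw [padicValRat_def, padicValNat.eq_zero_of_not_dvd hd]
  have h0 : padicValInt 2 r.num ≠ 0 := fun h0 => by
    rcases padicValInt.eq_zero_iff.mp h0 with h | h | h
    · norm_num at h
    · exact hr (Rat.num_eq_zero.mp h)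
    · exact h hn
  omega

/-- The residue of a rational number `2`-integral is `0` or `1`. -/
theorem res_ratCast_two (hA : A.LiesOverPrime 2) {r : ℚ} (h : (r : QBar) ∈ A) :
    res A (r : QBar) = 0 ∨ res A (r : QBar) = 1 := by
  have hd : ¬ 2 ∣ r.den := (ratCast_mem_iff hA Nat.prime_two r).mp h
  have hdA : (r.den : QBar) ∈ A := natCast_mem A _
  have e : (r : QBar) * (r.den : QBar) = (r.num : QBar) := by
    rw [Rat.cast_def, div_mul_cancel₀ _ (Nat.cast_ne_zero.mpr r.den_nz)]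
  have hden : res A (r.den : QBar) = 1 := by
    obtain ⟨k, hk⟩ := Nat.odd_iff.mpr (Nat.two_dvd_ne_zero.mp hd)
    rw [hk]; push_cast
    rw [res_add (mul_mem (ofNat_mem A 2) (natCast_mem A k)) (one_mem A), res_one,
      res_eq_zero (nonunits_mul_right (y := (k : QBar)) (by simpa using! hA) (natCast_mem A k)),
      zero_add]
  have := congrArg (res A) e
  rw [res_mul h hdA, hden, mul_one] at this
  rw [this]
  rcases Int.even_or_odd r.num with ⟨k, hk⟩ | ⟨k, hk⟩
  · left; rw [hk]; push_cast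
    rw [← two_mul]; exact res_eq_zero (nonunits_mul_right hA (intCast_mem A k))
  · right; rw [hk]; push_cast
    rw [res_add (mul_mem (ofNat_mem A 2) (intCast_mem A k)) (one_mem A), res_one,
      res_eq_zero (nonunits_mul_right (y := (k : QBar)) (by simpa using! hA) (intCast_mem A k)),
      zero_add]

/-- `padicValRat` of a sum with a dominant term. -/
theorem padicValRat_sub_of_ne {p : ℕ} [Fact p.Prime] {u w : ℚ} (hu : u ≠ 0) (hw : w ≠ 0)
    (huw : padicValRat p u ≠ padicValRat p w) :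
    padicValRat p (u - w) = min (padicValRat p u) (padicValRat p w) := by
  have h0 : u + -w ≠ 0 := fun h => huw (by rw [eq_neg_of_add_eq_zero_left h, neg_neg])
  rw [sub_eq_add_neg, padicValRat.add_eq_min h0 hu (neg_ne_zero.mpr hw) (by rwa [padicValRat.neg]),
    padicValRat.neg]

theorem le_padicValRat_sub {p : ℕ} [Fact p.Prime] {u w : ℚ} (huw : u ≠ w) :
    min (padicValRat p u) (padicValRat p w) ≤ padicValRat p (u - w) := by
  have := padicValRat.min_le_padicValRat_add (p := p) (q := u) (r := -w)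
    (by rw [← sub_eq_add_neg]; exact sub_ne_zero.mpr huw)
  rwa [padicValRat.neg, ← sub_eq_add_neg] at this

end RatTwo

variable {P : FreyPackage}

theorem eq_ratCast_of_fixed {z : QBar} (h : ∀ σ : GQ, σ z = z) : ∃ r : ℚ, z = (r : QBar) := by
  obtain ⟨r, hr⟩ := IntermediateField.mem_bot.mp ((InfiniteGalois.mem_bot_iff_fixed z).mpr h)
  exact ⟨r, hr.symm.trans (eq_ratCast (algebraMap ℚ QBar) r)⟩

theorem exists_rat_coords {Q : PointQBar P.freyCurveInt} (hQ : Q ≠ 0)
    (hfix : ∀ σ : GQ, σ • Q = Q) :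
    ∃ (x y : ℚ) (h : ((P.freyCurveInt.map (Int.castRingHom ℚ))⁄(AlgebraicClosure ℚ)).toAffine.Nonsingular
      (x : QBar) (y : QBar)), Q = Affine.Point.some (x : QBar) (y : QBar) h := by
  match Q with
  | .zero => exact absurd rfl hQ
  | .some x y h =>
    have key : ∀ σ : GQ, σ x = x ∧ σ y = y := fun σ => by
      have := hfix σ
      rw [Affine.Point.algEquiv_smul_def, Affine.Point.map_some] at this
      simpa using Affine.Point.some.inj this
    obtain ⟨r, rfl⟩ := eq_ratCast_of_fixed fun σ => (key σ).1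
    obtain ⟨s, rfl⟩ := eq_ratCast_of_fixed fun σ => (key σ).2
    exact ⟨r, s, h, rfl⟩

/-- The Frey equation over `QBar`. -/
noncomputable abbrev freyWL (P : FreyPackage) : Affine QBar :=
  ((P.freyCurveInt.map (Int.castRingHom ℚ))⁄(AlgebraicClosure ℚ)).toAffine

theorem two_dvd_b (P : FreyPackage) : ((2 : ℕ) : ℤ) ∣ P.b :=
  (ZMod.intCast_zmod_eq_zero_iff_dvd P.b 2).mp P.hb2

theorem frey_a₄_ne_zero (P : FreyPackage) : P.freyCurveInt.a₄ ≠ 0 := by
  intro h'
  have := Frey.sixteen_mul_a₄ P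
  rw [h', mul_zero, eq_comm, mul_eq_zero, neg_eq_zero] at this
  rcases this with h | h
  · exact P.ha0 ((pow_eq_zero_iff P.hp0).mp h)
  · exact P.hb0 ((pow_eq_zero_iff P.hp0).mp h)

variable {A : ValuationSubring QBar}

theorem frey_red_coeffs_two (hA : A.LiesOverPrime 2) :
    (redCurve P.freyCurveInt A).a₃ = 0 ∧ (redCurve P.freyCurveInt A).a₄ = 0 ∧
      (redCurve P.freyCurveInt A).a₆ = 0 := by
  obtain ⟨-, c3, c6, -, c4⟩ := freyQBar_coeffs (P := P)
  have h := reducesTo_qbar (W := P.freyCurveInt) A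
  have hT := frey_node_zero (P := P) hA Nat.prime_two (Or.inr (two_dvd_b P))
  refine ⟨by rw [← h.res_a₃, c3, res_zero], ?_, by rw [← h.res_a₆, c6, res_zero]⟩
  rw [← h.res_a₄, c4]
  have := hT.linear_small
  simp only [nodeA₄, c4, mul_zero, zero_add, zero_pow two_ne_zero, sub_zero] at this
  exact res_eq_zero this

theorem nsmul_sub_nsmul {G : Type*} [AddCommGroup G] (Q : G) {i j : ℕ} (h : i ≤ j) :
    j • Q - i • Q = (j - i) • Q := by
  rw [sub_eq_iff_eq_add, ← add_nsmul, Nat.sub_add_cancel h]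

theorem nsmul_ne_zero_of_prime {G : Type*} [AddCommGroup G] {Q : G} {p : ℕ} (hp : p.Prime)
    (hpQ : p • Q = 0) (hQ : Q ≠ 0) {k : ℕ} (hk : 0 < k) (hkp : k < p) : k • Q ≠ 0 := fun hc => by
  have := Fact.mk hp
  have := Nat.le_of_dvd hk
    (addOrderOf_eq_prime hpQ hQ ▸ addOrderOf_dvd_of_nsmul_eq_zero hc)
  omega

theorem nsmul_fixed {Q : PointQBar P.freyCurveInt} (hfix : ∀ σ : GQ, σ • Q = Q) (k : ℕ)
    (σ : GQ) : σ • (k • Q) = k • Q := by
  have : σ • (k • Q) = k • (σ • Q) := map_nsmul (Affine.Point.map (σ : GQ).toAlgHom) k Q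
  rw [this, hfix]

/-- At `2` a rational point of order `p` of the Frey curve is off `E0`: the reduced curve has at
most two nonzero rational nonsingular points. -/
theorem frey_not_inE0_two (hA : A.LiesOverPrime 2) {Q : PointQBar P.freyCurveInt}
    (hpQ : P.p • Q = 0) (hfix : ∀ σ : GQ, σ • Q = Q) (hQ0 : Q ≠ 0) :
    ¬ InE0 A (redCurve P.freyCurveInt A) Q := by
  classical
  intro hQE0
  have h := reducesTo_qbar (W := P.freyCurveInt) A
  obtain ⟨v3, v4, v6⟩ := frey_red_coeffs_two (P := P) hA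
  have hp5 := P.hp5
  have hE1 : ∀ k, 0 < k → k < P.p → ¬ InE1 A (k • Q) := fun k hk hkp hin =>
    nsmul_ne_zero_of_prime P.pp hpQ hQ0 hk hkp
      (e1TorsionFree P.p P.pp 2 Nat.prime_two (by omega) A hA _ hin
        (by rw [← mul_nsmul, mul_comm, mul_nsmul, hpQ, nsmul_zero]))
  have hE0k : ∀ k, InE0 A (redCurve P.freyCurveInt A) (k • Q) := fun k =>
    (h.mem_E0).mp (h.E0.nsmul_mem ((h.mem_E0).mpr hQE0) k)
  have hval : ∀ k, 0 < k → k < P.p → ∃ (x y : QBar) (hn : (freyWL P).Nonsingular x y) (b : Bool),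
      k • Q = Affine.Point.some x y hn ∧ x ∈ A ∧ res A x = 1 ∧
        res A y = (if b then 1 else 0) ∧
        (redCurve P.freyCurveInt A).Nonsingular (res A x) (res A y) := by
    intro k hk hkp
    obtain ⟨x, y, hn, e⟩ := exists_rat_coords (nsmul_ne_zero_of_prime P.pp hpQ hQ0 hk hkp)
      (nsmul_fixed hfix k)
    have hxA : (x : QBar) ∈ A := by
      by_contra hx
      exact hE1 k hk hkp (e ▸ hx)
    have hns' : (redCurve P.freyCurveInt A).Nonsingular (res A (x : QBar)) (res A (y : QBar)) :=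
      ((inE0_some hn).mp (e ▸ hE0k k)).resolve_left (not_not_intro hxA)
    have hyA : (y : QBar) ∈ A := h.y_mem hn.1 hxA
    refine ⟨x, y, hn, decide (res A (y : QBar) = 1), e, hxA, ?_, ?_, hns'⟩
    · rcases res_ratCast_two hA hxA with hx | hx
      · exfalso
        rw [hx] at hns'
        obtain ⟨he, hsing⟩ := (Affine.nonsingular_iff _ _).mp hns'
        rw [Affine.equation_iff, v3, v6] at he
        have hy0 : res A (y : QBar) = 0 :=
          (pow_eq_zero_iff two_ne_zero).mp (by linear_combination he)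
        rw [hy0, v4, v3] at hsing
        simp at hsing
      · exact hx
    · rcases res_ratCast_two hA hyA with hy | hy <;> simp [hy]
  obtain ⟨x1, y1, n1, b1, e1, a1, r1, s1, m1⟩ := hval 1 one_pos (by omega)
  obtain ⟨x2, y2, n2, b2, e2, a2, r2, s2, m2⟩ := hval 2 two_pos (by omega)
  obtain ⟨x3, y3, n3, b3, e3, a3, r3, s3, m3⟩ := hval 3 (by omega) (by omega)
  have hsame : ∀ i j : ℕ, i < j → j ≤ 3 →
      redFun A (redCurve P.freyCurveInt A) (j • Q) =
        redFun A (redCurve P.freyCurveInt A) (i • Q) → False := by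
    intro i j hij hj heq
    have hmem := h.sub_mem_E1 (hE0k j) (hE0k i) heq
    rw [nsmul_sub_nsmul Q hij.le] at hmem
    exact hE1 (j - i) (by omega) (by omega) ((h.mem_E1).mp hmem)
  have hred : ∀ {x y x' y' : QBar} (n : (freyWL P).Nonsingular x y)
      (n' : (freyWL P).Nonsingular x' y'),
      x ∈ A → x' ∈ A → (redCurve P.freyCurveInt A).Nonsingular (res A x) (res A y) →
      (redCurve P.freyCurveInt A).Nonsingular (res A x') (res A y') →
      res A x' = res A x → res A y' = res A y →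
      redFun A (redCurve P.freyCurveInt A)
          (Affine.Point.some x' y' n' : PointQBar P.freyCurveInt) =
        redFun A (redCurve P.freyCurveInt A)
          (Affine.Point.some x y n : PointQBar P.freyCurveInt) := by
    intro x y x' y' n n' hx hx' m m' ex ey
    rw [redFun_some n' hx' m', redFun_some n hx m]
    simp only [ex, ey]
  rcases (show b2 = b1 ∨ b3 = b1 ∨ b3 = b2 by cases b1 <;> cases b2 <;> cases b3 <;> simp) with
    hb | hb | hb
  · exact hsame 1 2 (by omega) (by omega)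
      (by rw [e1, e2]; exact hred n1 n2 a1 a2 m1 m2 (r2.trans r1.symm) (by rw [s2, s1, hb]))
  · exact hsame 1 3 (by omega) le_rfl
      (by rw [e1, e3]; exact hred n1 n3 a1 a3 m1 m3 (r3.trans r1.symm) (by rw [s3, s1, hb]))
  · exact hsame 2 3 (by omega) le_rfl
      (by rw [e2, e3]; exact hred n2 n3 a2 a3 m2 m3 (r3.trans r2.symm) (by rw [s3, s2, hb]))

/-- At `2` a rational point of order `p` of the Frey curve is a branch point:
`0 < v(x) < v(a₄)`. -/
theorem frey_branch_two (hA : A.LiesOverPrime 2) {R : PointQBar P.freyCurveInt}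
    (hpR : P.p • R = 0) (hfix : ∀ σ : GQ, σ • R = R) (hR0 : R ≠ 0) :
    ∃ (x y : ℚ) (hn : (freyWL P).Nonsingular (x : QBar) (y : QBar)),
      R = Affine.Point.some (x : QBar) (y : QBar) hn ∧ x ≠ 0 ∧ 0 < padicValRat 2 x ∧
        padicValRat 2 x < padicValRat 2 (P.freyCurveInt.a₄ : ℚ) := by
  classical
  have : Fact (Nat.Prime 2) := ⟨Nat.prime_two⟩
  obtain ⟨c1, c3, c6, c2, c4⟩ := freyQBar_coeffs (P := P)
  have h := reducesTo_qbar (W := P.freyCurveInt) A
  have hT := frey_node_zero (P := P) hA Nat.prime_two (Or.inr (two_dvd_b P))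
  have hns : (freyWL P).Nonsingular 0 0 := Affine.equation_iff_nonsingular.mp hT.equation
  obtain ⟨x, y, hn, e⟩ := exists_rat_coords hR0 hfix
  have hnE0 := frey_not_inE0_two hA hpR hfix hR0
  rw [e] at hnE0
  obtain ⟨-, -, hXn⟩ := hT.res_eq_of_not_inE0 h hn hnE0
  rw [sub_zero] at hXn
  obtain ⟨v3, v4, -⟩ := frey_red_coeffs_two (P := P) hA
  have hTE0 : ¬ InE0 A (redCurve P.freyCurveInt A)
      (Affine.Point.some 0 0 hns : PointQBar P.freyCurveInt) := by
    intro hin
    have := ((inE0_some hns).mp hin).resolve_left (not_not_intro (zero_mem A))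
    rw [res_zero, Affine.nonsingular_iff] at this
    obtain ⟨-, hsing⟩ := this
    rw [v4, v3] at hsing
    simp at hsing
  obtain ⟨hh, hph⟩ := P.hp_odd
  have hTT : (Affine.Point.some 0 0 hns : PointQBar P.freyCurveInt) + Affine.Point.some 0 0 hns = 0 :=
    Affine.Point.add_of_Y_eq rfl (by rw [Affine.negY, c1, c3]; ring)
  have hpT : P.p • (R + Affine.Point.some 0 0 hns) = Affine.Point.some 0 0 hns := by
    rw [nsmul_add, hpR, zero_add, hph, add_nsmul, mul_nsmul, two_nsmul, hTT, nsmul_zero, zero_add,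
      one_nsmul]
  have hx0 : x ≠ 0 := by
    intro h0
    have hy0 : (y : QBar) = 0 := by
      have := hT.shifted_equation hn.1
      simp only [h0, Rat.cast_zero, sub_zero, mul_zero, zero_mul, add_zero, zero_pow two_ne_zero,
        zero_pow three_ne_zero] at this
      exact (pow_eq_zero_iff two_ne_zero).mp this
    have hsum : R + Affine.Point.some 0 0 hns = 0 := by
      rw [e]
      exact Affine.Point.add_of_Y_eq (by rw [h0]; simp)
        (by rw [hy0, Affine.negY, c1, c3]; ring)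
    rw [hsum, nsmul_zero] at hpT
    exact Affine.Point.some_ne_zero hns hpT.symm
  have hbr : nodeA₄ (freyWL P) 0 0 / ((x : QBar) - 0) ∈ A.nonunits := by
    by_contra hc
    have hin := hT.add_node_inE0 h hn hns (by simpa using hx0) hc
    apply hTE0
    rw [← hpT, e]
    exact (h.mem_E0).mp (h.E0.nsmul_mem ((h.mem_E0).mpr hin) _)
  refine ⟨x, y, hn, e, hx0, padicValRat_pos_of_mem_nonunits hA hx0 hXn, ?_⟩
  have ha₄ : (P.freyCurveInt.a₄ : ℚ) ≠ 0 := Int.cast_ne_zero.mpr (frey_a₄_ne_zero P)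
  have hq : (((P.freyCurveInt.a₄ : ℚ) / x : ℚ) : QBar) ∈ A.nonunits := by
    simp only [nodeA₄, mul_zero, zero_add, zero_pow two_ne_zero, sub_zero, c4] at hbr
    push_cast
    exact hbr
  have := padicValRat_pos_of_mem_nonunits hA (div_ne_zero ha₄ hx0) hq
  rw [padicValRat.div ha₄ hx0] at this
  omega

/-- The valuation form of the duplication formula. -/
theorem padicValRat_double {x x' b α : ℚ} (hx : x ≠ 0) (hx' : x' ≠ 0) (hα : α ≠ 0)
    (hb : padicValRat 2 b = 0) (hb0 : b ≠ 0) (ha : 0 < padicValRat 2 x)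
    (ham : padicValRat 2 x < padicValRat 2 α) (hem : padicValRat 2 x' < padicValRat 2 α)
    (hid : x' * (x * (4 * x ^ 2 + b * x + 4 * α)) = (x ^ 2 - α) ^ 2) :
    FoldEq (padicValRat 2 α) (padicValRat 2 x') (2 * padicValRat 2 x) := by
  have : Fact (Nat.Prime 2) := ⟨Nat.prime_two⟩
  set D := 4 * x ^ 2 + b * x + 4 * α with hD
  have h4 : padicValRat 2 (4 : ℚ) = 2 := by
    rw [show (4 : ℚ) = ((2 : ℕ) : ℚ) ^ 2 by norm_num, padicValRat.pow,
      padicValRat.self one_lt_two]
    norm_num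
  have t1 : padicValRat 2 (b * x) = padicValRat 2 x := by rw [padicValRat.mul hb0 hx, hb, zero_add]
  have t2 : padicValRat 2 (4 * x ^ 2) = 2 + 2 * padicValRat 2 x := by
    rw [padicValRat.mul (by norm_num) (pow_ne_zero _ hx), h4, padicValRat.pow]
    push_cast; ring
  have t3 : padicValRat 2 (4 * α) = 2 + padicValRat 2 α := by
    rw [padicValRat.mul (by norm_num) hα, h4]
  have s1 : b * x + 4 * x ^ 2 ≠ 0 := fun h0 => by
    have := congrArg (padicValRat 2) (eq_neg_of_add_eq_zero_left h0)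
    rw [padicValRat.neg, t1, t2] at this
    omega
  have v1 : padicValRat 2 (b * x + 4 * x ^ 2) = padicValRat 2 x := by
    rw [padicValRat.add_eq_of_lt s1 (mul_ne_zero hb0 hx)
      (mul_ne_zero (by norm_num) (pow_ne_zero _ hx)) (by rw [t1, t2]; omega), t1]
  have s2 : b * x + 4 * x ^ 2 + 4 * α ≠ 0 := fun h0 => by
    have := congrArg (padicValRat 2) (eq_neg_of_add_eq_zero_left h0)
    rw [padicValRat.neg, v1, t3] at this
    omega
  have e : D = b * x + 4 * x ^ 2 + 4 * α := by rw [hD]; ring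
  have hD0 : D ≠ 0 := e ▸ s2
  have hDv : padicValRat 2 D = padicValRat 2 x := by
    rw [e, padicValRat.add_eq_of_lt s2 s1 (mul_ne_zero (by norm_num) hα)
      (by rw [v1, t3]; omega), v1]
  have hne : x ^ 2 - α ≠ 0 := fun h0 => by
    rw [h0, zero_pow two_ne_zero] at hid
    exact mul_ne_zero hx' (mul_ne_zero hx hD0) hid
  have hval := congrArg (padicValRat 2) hid
  rw [padicValRat.mul hx' (mul_ne_zero hx hD0), padicValRat.mul hx hD0, hDv,
    padicValRat.pow] at hval
  push_cast at hval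
  refine fold_double (l := padicValRat 2 (x ^ 2 - α)) ha ham hem ?_ ?_ (by omega)
  · intro hne'
    rw [padicValRat_sub_of_ne (pow_ne_zero _ hx) hα
      (by rw [padicValRat.pow]; exact_mod_cast hne'), padicValRat.pow]
    norm_num
  · intro heq
    have := le_padicValRat_sub (p := 2) (sub_ne_zero.mp hne)
    rw [padicValRat.pow] at this
    push_cast at this
    omega

/-- The valuation form of the addition identity. -/
theorem padicValRat_step {x₁ x xm xp α : ℚ} (h1 : x₁ ≠ 0) (hx : x ≠ 0) (hm : xm ≠ 0)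
    (hp : xp ≠ 0) (hne1 : x ≠ x₁) (hα : α ≠ 0) {q : ℤ}
    (a0 : 0 < padicValRat 2 x₁) (a1 : padicValRat 2 x₁ < padicValRat 2 α)
    (c0 : 0 < padicValRat 2 x) (c1 : padicValRat 2 x < padicValRat 2 α)
    (d0 : 0 < padicValRat 2 xm) (d1 : padicValRat 2 xm < padicValRat 2 α)
    (e0 : 0 < padicValRat 2 xp) (e1 : padicValRat 2 xp < padicValRat 2 α)
    (hid : xp * xm * (x - x₁) ^ 2 = (x * x₁ - α) ^ 2)
    (hqc : FoldEq (padicValRat 2 α) (padicValRat 2 x) q)
    (hqd : FoldEq (padicValRat 2 α) (padicValRat 2 xm) (q - padicValRat 2 x₁)) :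
    FoldEq (padicValRat 2 α) (padicValRat 2 xp) (q + padicValRat 2 x₁) := by
  have : Fact (Nat.Prime 2) := ⟨Nat.prime_two⟩
  have hd : x - x₁ ≠ 0 := sub_ne_zero.mpr hne1
  have hne : x * x₁ - α ≠ 0 := fun h0 => by
    rw [h0, zero_pow two_ne_zero] at hid
    exact mul_ne_zero (mul_ne_zero hp hm) (pow_ne_zero 2 hd) hid
  have hval := congrArg (padicValRat 2) hid
  rw [padicValRat.mul (mul_ne_zero hp hm) (pow_ne_zero 2 hd), padicValRat.mul hp hm,
    padicValRat.pow, padicValRat.pow] at hval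
  push_cast at hval
  refine fold_step (k := padicValRat 2 (x - x₁)) (l := padicValRat 2 (x * x₁ - α))
    a0 a1 c0 c1 d0 d1 e0 e1 ?_ ?_ ?_ ?_ (by omega) hqc hqd
  · intro hne'
    rw [padicValRat_sub_of_ne hx h1 hne', min_comm]
  · intro heq
    have := le_padicValRat_sub (p := 2) hne1
    omega
  · intro hne'
    rw [padicValRat_sub_of_ne (mul_ne_zero hx h1) hα
      (by rw [padicValRat.mul hx h1, add_comm]; exact hne'), padicValRat.mul hx h1, add_comm]
  · intro heq
    have := le_padicValRat_sub (p := 2) (sub_ne_zero.mp hne)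
    rw [padicValRat.mul hx h1] at this
    omega

theorem frey_isCoprime_two (P : FreyPackage) :
    IsCoprime (P.p : ℤ) (2 * padicValRat 2 (P.freyCurveInt.a₄ : ℚ)) := by
  have : Fact (Nat.Prime 2) := ⟨Nat.prime_two⟩
  set m : ℤ := padicValRat 2 (P.freyCurveInt.a₄ : ℚ) with hm
  have hmv : m + 4 = (P.p : ℤ) * padicValInt 2 P.b := by
    have h16 : (16 : ℚ) * (P.freyCurveInt.a₄ : ℚ) = -((P.a : ℚ) ^ P.p) * (P.b : ℚ) ^ P.p := by
      have := congrArg (Int.cast : ℤ → ℚ) (Frey.sixteen_mul_a₄ P)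
      push_cast at this
      exact this
    have := congrArg (padicValRat 2) h16
    rw [padicValRat.mul (by norm_num) (Int.cast_ne_zero.mpr (frey_a₄_ne_zero P)),
      padicValRat.mul (neg_ne_zero.mpr (pow_ne_zero _ (Int.cast_ne_zero.mpr P.ha0)))
        (pow_ne_zero _ (Int.cast_ne_zero.mpr P.hb0)),
      padicValRat.neg, padicValRat.pow, padicValRat.pow,
      show (16 : ℚ) = ((2 : ℕ) : ℚ) ^ 4 by norm_num, padicValRat.pow,
      padicValRat.self one_lt_two, padicValRat.of_int, padicValRat.of_int,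
      padicValInt.eq_zero_of_not_dvd
        (fun hd => Frey.not_dvd_both Nat.prime_two P.hgcdab hd (two_dvd_b P))] at this
    rw [hm]
    simp only [padicValRat.of_int] at this ⊢
    push_cast at this
    omega
  refine (Nat.prime_iff_prime_int.mp P.pp).coprime_iff_not_dvd.mpr fun hd => ?_
  have h8 : (P.p : ℤ) ∣ 8 := by
    have e8 : (8 : ℤ) = 2 * ((P.p : ℤ) * padicValInt 2 P.b) - 2 * m := by omega
    rw [e8]
    exact dvd_sub (dvd_mul_of_dvd_right (dvd_mul_right _ _) _) hd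
  have hdiv : P.p ∣ 2 ^ 3 := Int.natCast_dvd_natCast.mp h8
  have := (Nat.prime_dvd_prime_iff_eq P.pp Nat.prime_two).mp (P.pp.dvd_of_dvd_pow hdiv)
  have := P.hp5
  omega

/-- The Frey curve has no rational point of order `p`. -/
theorem frey_no_rational_torsion (P : FreyPackage) (Q : PointQBar P.freyCurveInt)
    (hpQ : P.p • Q = 0) (hfix : ∀ σ : GQ, σ • Q = Q) : Q = 0 := by
  classical
  by_contra hQ0
  have : Fact (Nat.Prime 2) := ⟨Nat.prime_two⟩
  obtain ⟨A, hA⟩ := exists_liesOverPrime Nat.prime_two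
  obtain ⟨c1, c3, c6, c2, c4⟩ := freyQBar_coeffs (P := P)
  have hcoord : ∀ k, 0 < k → k < P.p → ∃ (x y : ℚ)
      (hn : (freyWL P).Nonsingular (x : QBar) (y : QBar)),
      k • Q = Affine.Point.some (x : QBar) (y : QBar) hn ∧ x ≠ 0 ∧ 0 < padicValRat 2 x ∧
        padicValRat 2 x < padicValRat 2 (P.freyCurveInt.a₄ : ℚ) :=
    fun k hk hkp => frey_branch_two hA (by rw [← mul_nsmul, mul_comm, mul_nsmul, hpQ, nsmul_zero])
      (nsmul_fixed hfix k) (nsmul_ne_zero_of_prime P.pp hpQ hQ0 hk hkp)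
  choose! X Y hN he hX0 hXpos hXlt using hcoord
  have hp5 := P.hp5
  set m : ℤ := padicValRat 2 (P.freyCurveInt.a₄ : ℚ) with hm
  have ha₄ : (P.freyCurveInt.a₄ : ℚ) ≠ 0 := Int.cast_ne_zero.mpr (frey_a₄_ne_zero P)
  have hsym : ∀ k, 0 < k → k < P.p → X (P.p - k) = X k := by
    intro k hk hkp
    have h1 := he (P.p - k) (by omega) (by omega)
    have h2 : (P.p - k) • Q = -(k • Q) := by
      rw [eq_neg_iff_add_eq_zero, ← add_nsmul, Nat.sub_add_cancel hkp.le, hpQ]
    rw [h2, he k hk hkp, Affine.Point.neg_some] at h1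
    exact (Rat.cast_injective (α := QBar) (Affine.Point.some.inj h1).1).symm
  have hQ1 := he 1 one_pos (by omega)
  rw [one_nsmul] at hQ1
  have hN1 : (freyWL P).Equation (X 1 : QBar) (Y 1 : QBar) := (hN 1 one_pos (by omega)).1
  have hdouble : FoldEq m (padicValRat 2 (X 2)) (2 * padicValRat 2 (X 1)) := by
    have e2 := he 2 two_pos (by omega)
    rw [two_nsmul, hQ1] at e2
    have hY : (Y 1 : QBar) ≠ (freyWL P).negY (X 1 : QBar) (Y 1 : QBar) := fun hy => by
      rw [Affine.Point.add_of_Y_eq rfl hy] at e2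
      exact (Affine.Point.some_ne_zero _) e2.symm
    rw [Affine.Point.add_self_of_Y_ne hY] at e2
    have hid := addX_double (W := freyWL P) c1 c3 c6 hN1 hY
    rw [(Affine.Point.some.inj e2).1, c2, c4] at hid
    have hid' : X 2 * (X 1 * (4 * X 1 ^ 2 + (1 + 4 * (P.freyCurveInt.a₂ : ℚ)) * X 1
        + 4 * (P.freyCurveInt.a₄ : ℚ))) = (X 1 ^ 2 - (P.freyCurveInt.a₄ : ℚ)) ^ 2 :=
      Rat.cast_injective (α := QBar) (by push_cast; exact hid)
    refine padicValRat_double (hX0 1 one_pos (by omega)) (hX0 2 two_pos (by omega)) ha₄ ?_ ?_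
      (hXpos 1 one_pos (by omega)) (hXlt 1 one_pos (by omega)) (hXlt 2 two_pos (by omega)) hid'
    · rw [show (1 + 4 * (P.freyCurveInt.a₂ : ℚ)) = ((1 + 4 * P.freyCurveInt.a₂ : ℤ) : ℚ) by
          push_cast; ring, padicValRat.of_int, padicValInt.eq_zero_of_not_dvd (by omega)]
      simp
    · intro h0
      have : (1 + 4 * P.freyCurveInt.a₂ : ℤ) = 0 := by exact_mod_cast h0
      omega
  have hrec : ∀ n, 1 ≤ n → n + 1 < P.p →
      FoldEq m (padicValRat 2 (X n)) (n * padicValRat 2 (X 1)) ∧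
      FoldEq m (padicValRat 2 (X (n + 1))) ((n + 1) * padicValRat 2 (X 1)) := by
    intro n hn
    induction n, hn using Nat.le_induction with
    | base =>
      intro _
      exact ⟨Or.inl ⟨0, by simp⟩, by simpa [one_add_one_eq_two] using hdouble⟩
    | succ n hn ih =>
      intro hnp
      obtain ⟨hd, hc⟩ := ih (by omega)
      refine ⟨by exact_mod_cast hc, ?_⟩
      have hs1 : n + 1 < P.p := by omega
      have ep : (n + 1) • Q + Q = _ := (succ_nsmul Q (n + 1)).symm.trans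
        (he (n + 1 + 1) (by omega) (by omega))
      have em : (n + 1) • Q - Q = _ := (eq_sub_of_add_eq (succ_nsmul Q n).symm).symm.trans
        (he n (by omega) (by omega))
      rw [he (n + 1) (by omega) hs1, hQ1] at ep em
      have hNs : (freyWL P).Equation (X (n + 1) : QBar) (Y (n + 1) : QBar) :=
        (hN (n + 1) (by omega) hs1).1
      have hxne : (X (n + 1) : QBar) ≠ (X 1 : QBar) := by
        intro hx
        rcases Affine.Y_eq_of_X_eq hNs hN1 hx with hy | hy
        · rw [sub_eq_add_neg, Affine.Point.neg_some, Affine.Point.add_of_Y_eq hx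
            (by rw [Affine.negY_negY]; exact hy)] at em
          exact Affine.Point.some_ne_zero _ em.symm
        · rw [Affine.Point.add_of_Y_eq hx hy] at ep
          exact Affine.Point.some_ne_zero _ ep.symm
      rw [Affine.Point.add_of_X_ne hxne] at ep
      rw [sub_eq_add_neg, Affine.Point.neg_some, Affine.Point.add_of_X_ne hxne] at em
      have hid := addX_mul_subX (W := freyWL P) c1 c3 c6 hNs hN1 hxne
      rw [(Affine.Point.some.inj ep).1, (Affine.Point.some.inj em).1, c4] at hid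
      have hid' : X (n + 1 + 1) * X n * (X (n + 1) - X 1) ^ 2 =
          (X (n + 1) * X 1 - (P.freyCurveInt.a₄ : ℚ)) ^ 2 :=
        Rat.cast_injective (α := QBar) (by push_cast; exact hid)
      have := padicValRat_step (q := ((n : ℤ) + 1) * padicValRat 2 (X 1))
        (hX0 1 one_pos (by omega)) (hX0 (n + 1) (by omega) hs1) (hX0 n (by omega) (by omega))
        (hX0 (n + 1 + 1) (by omega) hnp) (fun h0 => hxne (by rw [h0])) ha₄
        (hXpos 1 one_pos (by omega)) (hXlt 1 one_pos (by omega))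
        (hXpos (n + 1) (by omega) hs1) (hXlt (n + 1) (by omega) hs1)
        (hXpos n (by omega) (by omega)) (hXlt n (by omega) (by omega))
        (hXpos (n + 1 + 1) (by omega) hnp) (hXlt (n + 1 + 1) (by omega) hnp) hid'
        (by exact_mod_cast hc)
        (by rwa [show ((n : ℤ) + 1) * padicValRat 2 (X 1) - padicValRat 2 (X 1)
          = n * padicValRat 2 (X 1) by ring])
      rwa [show (((n + 1 : ℕ) : ℤ) + 1) * padicValRat 2 (X 1)
        = ((n : ℤ) + 1) * padicValRat 2 (X 1) + padicValRat 2 (X 1) by push_cast; ring]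
  obtain ⟨hh, hph⟩ := P.hp_odd
  obtain ⟨h1, h2⟩ := hrec hh (by omega) (by omega)
  have hsym' : X (hh + 1) = X hh := by
    have := hsym hh (by omega) (by omega)
    rwa [show P.p - hh = hh + 1 by omega] at this
  rw [hsym'] at h2
  exact fold_contradiction (p := P.p) hph (hXpos 1 one_pos (by omega)) (hXlt 1 one_pos (by omega))
    (frey_isCoprime_two P) h1 h2

end Fermat.Agent.EC.AtP
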