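import Fermat.Agent.EC.Reduction.Hom

/-!
# Points reducing to a node through which an integral `2`-torsion point passes

`W` over a field with valuation subring `A`, and an integral point `(t, u)` of order two reducing
to a node.  In the shifted coordinates `X = x - t`, `Y = y - u` the equation reads
`Y² + a₁XY = X³ + α₂X² + α₄X` with `α₄` in the maximal ideal and `a₁² + 4α₂` a unit.  A point off
`E0` is either a branch point (`α₄ / X` in the maximal ideal) or is moved into `E0` by adding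
`(t, u)`; the difference of two branch points with the same residual slope and the same size of
`X` lies in `E0`.
-/

set_option autoImplicit false

open WeierstrassCurve

namespace Fermat.Agent.EC.AtP

open Fermat.Agent.EC.Reduction

variable {L : Type*} [Field L] {A : ValuationSubring L}
  {W : Affine L} {V : Affine (IsLocalRing.ResidueField A)}

/-- The quadratic coefficient of the equation shifted to `(t, u)`. -/
def nodeA₂ (W : Affine L) (t : L) : L := 3 * t + W.a₂

/-- The linear coefficient of the equation shifted to `(t, u)`. -/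
def nodeA₄ (W : Affine L) (t u : L) : L := 3 * t ^ 2 + 2 * W.a₂ * t + W.a₄ - W.a₁ * u

/-- `(t, u)` is an integral point of order two reducing to a node. -/
structure TwoTorsionNode (A : ValuationSubring L) (W : Affine L) (t u : L) : Prop where
  t_mem : t ∈ A
  u_mem : u ∈ A
  equation : W.Equation t u
  two_torsion : 2 * u + W.a₁ * t + W.a₃ = 0
  linear_small : nodeA₄ W t u ∈ A.nonunits
  disc_unit : res A (W.a₁ ^ 2 + 4 * nodeA₂ W t) ≠ 0

namespace TwoTorsionNode

variable {t u : L}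

theorem nodeA₂_mem (hT : TwoTorsionNode A W t u) (h : ReducesTo A W V) : nodeA₂ W t ∈ A :=
  add_mem (mul_mem (ofNat_mem A 3) hT.t_mem) h.a₂_mem

theorem shifted_equation (hT : TwoTorsionNode A W t u) {x y : L} (he : W.Equation x y) :
    (y - u) ^ 2 + W.a₁ * (x - t) * (y - u) =
      (x - t) ^ 3 + nodeA₂ W t * (x - t) ^ 2 + nodeA₄ W t u * (x - t) := by
  have h1 := (Affine.equation_iff x y).mp he
  have h2 := (Affine.equation_iff t u).mp hT.equation
  have h3 := hT.two_torsion
  simp only [nodeA₂, nodeA₄]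
  linear_combination h1 - h2 - (y - u) * h3

/-- An integral point with `x ≢ t` reduces to a nonsingular point. -/
theorem inE0_of_res_ne (hT : TwoTorsionNode A W t u) (h : ReducesTo A W V) {x y : L}
    (hxy : W.Nonsingular x y) (hne : x ∈ A → res A (x - t) ≠ 0) :
    InE0 A V (Affine.Point.some x y hxy) := by
  rw [inE0_some]
  by_cases hx : x ∈ A
  swap
  · exact Or.inl hx
  right
  have hy := h.y_mem hxy.1 hx
  refine (Affine.nonsingular_iff _ _).mpr ⟨h.equation_res hx hy hxy.1, ?_⟩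
  by_contra hc
  simp only [not_or, not_not] at hc
  obtain ⟨hY, hX⟩ := hc
  apply hne hx
  rw [← h.res_a₁, ← h.res_a₂, ← h.res_a₄] at hY
  rw [← h.res_a₁, ← h.res_a₃] at hX
  have hse := hT.shifted_equation hxy.1
  obtain ⟨W₀, hW₀, -⟩ := h
  set T := (⟨x, hx⟩ : A) - ⟨t, hT.t_mem⟩
  set U := (⟨y, hy⟩ : A) - ⟨u, hT.u_mem⟩
  have e2 : 2 * u + W.a₁ * t + W.a₃ = 0 := hT.two_torsion
  subst hW₀
  set a₁ := IsLocalRing.residue A W₀.a₁
  set a₂ := IsLocalRing.residue A W₀.a₂
  set a₃ := IsLocalRing.residue A W₀.a₃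
  set a₄ := IsLocalRing.residue A W₀.a₄
  set x₀ := IsLocalRing.residue A ⟨x, hx⟩
  set y₀ := IsLocalRing.residue A ⟨y, hy⟩
  set t₀ := IsLocalRing.residue A ⟨t, hT.t_mem⟩
  set u₀ := IsLocalRing.residue A ⟨u, hT.u_mem⟩
  have r2 : 2 * u₀ + a₁ * t₀ + a₃ = 0 := by
    have : (2 * (⟨u, hT.u_mem⟩ : A) + W₀.a₁ * ⟨t, hT.t_mem⟩ + W₀.a₃) = 0 := Subtype.ext e2
    simpa only [map_add, map_mul, map_pow, map_sub, map_ofNat, map_zero] using congrArg (IsLocalRing.residue A) this
  have r4 : 3 * t₀ ^ 2 + 2 * a₂ * t₀ + a₄ - a₁ * u₀ = 0 := by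
    have hmem : (((3 * (⟨t, hT.t_mem⟩ : A) ^ 2 + 2 * W₀.a₂ * ⟨t, hT.t_mem⟩ + W₀.a₄
        - W₀.a₁ * ⟨u, hT.u_mem⟩ : A)) : L) ∈ A.nonunits := hT.linear_small
    have := (IsLocalRing.residue_eq_zero_iff _).mpr (ValuationSubring.coe_mem_nonunits_iff.mp hmem)
    simpa only [map_add, map_mul, map_pow, map_sub, map_ofNat] using this
  have rse : (y₀ - u₀) ^ 2 + a₁ * (x₀ - t₀) * (y₀ - u₀) =
      (x₀ - t₀) ^ 3 + (3 * t₀ + a₂) * (x₀ - t₀) ^ 2 +
        (3 * t₀ ^ 2 + 2 * a₂ * t₀ + a₄ - a₁ * u₀) * (x₀ - t₀) := by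
    have : ((⟨y, hy⟩ : A) - ⟨u, hT.u_mem⟩) ^ 2
        + W₀.a₁ * (⟨x, hx⟩ - ⟨t, hT.t_mem⟩) * (⟨y, hy⟩ - ⟨u, hT.u_mem⟩) =
        (⟨x, hx⟩ - ⟨t, hT.t_mem⟩) ^ 3 + (3 * ⟨t, hT.t_mem⟩ + W₀.a₂) * (⟨x, hx⟩ - ⟨t, hT.t_mem⟩) ^ 2
          + (3 * ⟨t, hT.t_mem⟩ ^ 2 + 2 * W₀.a₂ * ⟨t, hT.t_mem⟩ + W₀.a₄
            - W₀.a₁ * ⟨u, hT.u_mem⟩) * (⟨x, hx⟩ - ⟨t, hT.t_mem⟩) := Subtype.ext hse
    simpa only [map_add, map_mul, map_pow, map_sub, map_ofNat, map_zero] using congrArg (IsLocalRing.residue A) this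
  have hY' : a₁ * y₀ = 3 * x₀ ^ 2 + 2 * a₂ * x₀ + a₄ := by
    simpa [res_of_mem hx, res_of_mem hy] using hY
  have hX' : y₀ = -y₀ - a₁ * x₀ - a₃ := by
    simpa [res_of_mem hx, res_of_mem hy] using hX
  rw [res_sub hx hT.t_mem, res_of_mem hx, res_of_mem hT.t_mem]
  by_contra hne'
  have hx3 : (x₀ - t₀) ^ 3 = 0 := by
    linear_combination 2 * rse - (x₀ - t₀) * hY' - (y₀ - u₀) * hX' + (y₀ - u₀) * r2 + (x₀ - t₀) * r4
  exact hne' (pow_eq_zero_iff three_ne_zero |>.mp hx3)

/-- A point off `E0` lies over the node. -/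
theorem res_eq_of_not_inE0 (hT : TwoTorsionNode A W t u) (h : ReducesTo A W V) {x y : L}
    (hxy : W.Nonsingular x y) (hP : ¬ InE0 A V (Affine.Point.some x y hxy)) :
    x ∈ A ∧ y ∈ A ∧ x - t ∈ A.nonunits := by
  have hx : x ∈ A := not_not.mp fun hx => hP ((inE0_some hxy).mpr (Or.inl hx))
  refine ⟨hx, h.y_mem hxy.1 hx, ?_⟩
  rw [← res_eq_zero_iff (sub_mem hx hT.t_mem)]
  exact not_not.mp fun hr => hP (hT.inE0_of_res_ne h hxy fun _ => hr)

/-- Translation by the node point moves a non-branch point into `E0`. -/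
theorem add_node_inE0 [DecidableEq L] (hT : TwoTorsionNode A W t u) (h : ReducesTo A W V)
    {x y : L} (hxy : W.Nonsingular x y) (htu : W.Nonsingular t u) (hxt : x ≠ t)
    (hbr : nodeA₄ W t u / (x - t) ∉ A.nonunits) :
    InE0 A V (Affine.Point.some x y hxy + Affine.Point.some t u htu) := by
  rw [Affine.Point.add_of_X_ne hxt]
  refine hT.inE0_of_res_ne h _ fun hm => ?_
  have e : W.addX x t (W.slope x t y u) - t = nodeA₄ W t u / (x - t) := by
    have hse := hT.shifted_equation hxy.1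
    have hd : x - t ≠ 0 := sub_ne_zero.mpr hxt
    rw [Affine.slope_of_X_ne hxt, Affine.addX, eq_div_iff hd]
    simp only [nodeA₂] at hse
    field_simp
    linear_combination hse
  rw [e]
  have hm' : nodeA₄ W t u / (x - t) ∈ A := e ▸ sub_mem hm hT.t_mem
  rwa [Ne, res_eq_zero_iff hm']

/-- The slope of a branch point. -/
theorem branch_slope (hT : TwoTorsionNode A W t u) (h : ReducesTo A W V) {x y : L}
    (he : W.Equation x y) (hxt : x ≠ t) (hX : x - t ∈ A.nonunits)
    (hbr : nodeA₄ W t u / (x - t) ∈ A.nonunits) :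
    (y - u) / (x - t) ∈ A ∧
      res A ((y - u) / (x - t)) ^ 2 + res A W.a₁ * res A ((y - u) / (x - t)) =
        res A (nodeA₂ W t) ∧
      2 * res A ((y - u) / (x - t)) + res A W.a₁ ≠ 0 := by
  set s := (y - u) / (x - t) with hs
  have hd : x - t ≠ 0 := sub_ne_zero.mpr hxt
  have hXA := ValuationSubring.nonunits_subset hX
  have hbA := ValuationSubring.nonunits_subset hbr
  have e : s ^ 2 + W.a₁ * s = (x - t) + nodeA₂ W t + nodeA₄ W t u / (x - t) := by
    rw [hs]
    have := hT.shifted_equation he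
    field_simp
    linear_combination this
  have hrhs : (x - t) + nodeA₂ W t + nodeA₄ W t u / (x - t) ∈ A :=
    add_mem (add_mem hXA (hT.nodeA₂_mem h)) hbA
  have hsA : s ∈ A := by
    by_contra hn
    have hi := inv_mem_nonunits hn
    have hs0 := ne_zero_of_not_mem hn
    have h1 : (1 : L) = s⁻¹ ^ 2 * ((x - t) + nodeA₂ W t + nodeA₄ W t u / (x - t))
        + -(W.a₁ * s⁻¹) := by
      rw [← e]; field_simp; ring
    have hiA := ValuationSubring.nonunits_subset hi
    have := congrArg (res A) h1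
    rw [res_one, res_add (mul_mem (pow_mem hiA 2) hrhs) (neg_mem (mul_mem h.a₁_mem hiA)),
      res_mul (pow_mem hiA 2) hrhs, res_pow hiA, res_neg (mul_mem h.a₁_mem hiA),
      res_mul h.a₁_mem hiA, res_eq_zero hi] at this
    simp at this
  have e' : res A s ^ 2 + res A W.a₁ * res A s = res A (nodeA₂ W t) := by
    have := congrArg (res A) e
    rwa [res_add (pow_mem hsA 2) (mul_mem h.a₁_mem hsA), res_pow hsA, res_mul h.a₁_mem hsA,
      res_add (add_mem hXA (hT.nodeA₂_mem h)) hbA, res_add hXA (hT.nodeA₂_mem h),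
      res_eq_zero hX, res_eq_zero hbr, zero_add, add_zero] at this
  refine ⟨hsA, e', fun h0 => hT.disc_unit ?_⟩
  have h4 : res A (4 : L) = 4 := by
    rw [res_of_mem (ofNat_mem A 4)]; exact map_ofNat _ 4
  rw [res_add (pow_mem h.a₁_mem 2) (mul_mem (ofNat_mem A 4) (hT.nodeA₂_mem h)),
    res_pow h.a₁_mem, res_mul (ofNat_mem A 4) (hT.nodeA₂_mem h), h4]
  linear_combination (2 * res A s + res A W.a₁) * h0 - 4 * e'

/-- Two branch points with equal residual slope, whose shifted abscissae differ by a unit factor,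
differ by an element of `E0`. -/
theorem sub_inE0_of_branch [DecidableEq L] (hT : TwoTorsionNode A W t u) (h : ReducesTo A W V)
    {x y x' y' : L} (hxy : W.Nonsingular x y) (hxy' : W.Nonsingular x' y')
    (hxt : x ≠ t) (hX : x - t ∈ A.nonunits) (hX' : x' - t ∈ A.nonunits)
    (hbr : nodeA₄ W t u / (x - t) ∈ A.nonunits) (hbr' : nodeA₄ W t u / (x' - t) ∈ A.nonunits)
    (hw : (x' - t) / (x - t) ∈ A) (hw' : res A ((x' - t) / (x - t)) ≠ 0)
    (hs : res A ((y' - u) / (x' - t)) = res A ((y - u) / (x - t))) :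
    InE0 A V (Affine.Point.some x' y' hxy' - Affine.Point.some x y hxy) := by
  rw [sub_eq_add_neg, Affine.Point.neg_some]
  have hd : x - t ≠ 0 := sub_ne_zero.mpr hxt
  have hxt' : x' ≠ t := by
    intro h0
    rw [h0, sub_self, zero_div, res_zero] at hw'
    exact hw' rfl
  have hd' : x' - t ≠ 0 := sub_ne_zero.mpr hxt'
  obtain ⟨hsA, hsq, hdisc⟩ := hT.branch_slope h hxy.1 hxt hX hbr
  obtain ⟨hsA', -, -⟩ := hT.branch_slope h hxy'.1 hxt' hX' hbr'
  by_cases hxx : x' = x
  · by_cases hyy : y' = y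
    · rw [Affine.Point.add_of_Y_eq hxx (by rw [Affine.negY_negY]; exact hyy)]
      exact inE0_zero
    · exfalso
      have hy2 : y' = W.negY x y := (Affine.Y_eq_of_X_eq hxy'.1 hxy.1 hxx).resolve_left hyy
      have e : (y' - u) / (x' - t) = -((y - u) / (x - t)) - W.a₁ := by
        rw [hy2, hxx, Affine.negY]
        have := hT.two_torsion
        field_simp
        linear_combination -this
      rw [e, res_sub (neg_mem hsA) h.a₁_mem, res_neg hsA] at hs
      exact hdisc (by linear_combination -hs)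
  rw [Affine.Point.add_of_X_ne hxx]
  refine hT.inE0_of_res_ne h _ fun hm => ?_
  set w := (x' - t) / (x - t) with hwdef
  set s := (y - u) / (x - t) with hsdef
  set s' := (y' - u) / (x' - t) with hsdef'
  set l := W.slope x' x y' (W.negY x y) with hldef
  have hsum : W.addX x' x l - t =
      l ^ 2 + W.a₁ * l - nodeA₂ W t - (x - t) - (x' - t) := by
    simp only [Affine.addX, nodeA₂]; ring
  have hl : l * (w - 1) = s' * w + s + W.a₁ := by
    rw [hldef, Affine.slope_of_X_ne hxx, hwdef, hsdef, hsdef', Affine.negY]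
    have hne : x' - x ≠ 0 := sub_ne_zero.mpr hxx
    have := hT.two_torsion
    field_simp
    linear_combination (x' - x) * this
  have hXA := ValuationSubring.nonunits_subset hX
  have hXA' := ValuationSubring.nonunits_subset hX'
  have ha₂ := hT.nodeA₂_mem h
  have hr := congrArg (res A) hl
  rw [hsum]
  by_cases hlA : l ∈ A
  · have hlq : l ^ 2 + W.a₁ * l ∈ A := add_mem (pow_mem hlA 2) (mul_mem h.a₁_mem hlA)
    rw [res_sub (sub_mem (sub_mem hlq ha₂) hXA) hXA', res_sub (sub_mem hlq ha₂) hXA,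
      res_sub hlq ha₂, res_add (pow_mem hlA 2) (mul_mem h.a₁_mem hlA), res_pow hlA,
      res_mul h.a₁_mem hlA, res_eq_zero hX, res_eq_zero hX', sub_zero, sub_zero]
    rw [res_mul hlA (sub_mem hw (one_mem A)), res_sub hw (one_mem A), res_one,
      res_add (add_mem (mul_mem hsA' hw) hsA) h.a₁_mem, res_add (mul_mem hsA' hw) hsA,
      res_mul hsA' hw, hs] at hr
    intro h0
    have hw1 : res A w * (2 * res A s + res A W.a₁) ^ 2 = 0 := by
      linear_combination (res A w - 1) ^ 2 * h0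
        - (res A l * (res A w - 1) + res A s * res A w + res A s + res A W.a₁
          + res A W.a₁ * (res A w - 1)) * hr - (res A w - 1) ^ 2 * hsq
    rcases mul_eq_zero.mp hw1 with h1 | h1
    · exact hw' h1
    · exact hdisc (pow_eq_zero_iff two_ne_zero |>.mp h1)
  · exfalso
    have hi := inv_mem_nonunits hlA
    have hiA := ValuationSubring.nonunits_subset hi
    have hl0 := ne_zero_of_not_mem hlA
    have hmA : l ^ 2 + W.a₁ * l - nodeA₂ W t - (x - t) - (x' - t) ∈ A :=
      hsum ▸ sub_mem hm hT.t_mem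
    set c := (l ^ 2 + W.a₁ * l - nodeA₂ W t - (x - t) - (x' - t))
      + nodeA₂ W t + (x - t) + (x' - t) with hc
    have hcA : c ∈ A := add_mem (add_mem (add_mem hmA ha₂) hXA) hXA'
    have h1 : (1 : L) = l⁻¹ ^ 2 * c + -(W.a₁ * l⁻¹) := by
      rw [hc]; field_simp; ring
    have := congrArg (res A) h1
    rw [res_one, res_add (mul_mem (pow_mem hiA 2) hcA) (neg_mem (mul_mem h.a₁_mem hiA)),
      res_mul (pow_mem hiA 2) hcA, res_pow hiA, res_neg (mul_mem h.a₁_mem hiA),
      res_mul h.a₁_mem hiA, res_eq_zero hi] at this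
    simp at this

end TwoTorsionNode

end Fermat.Agent.EC.AtP
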