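import Fermat.Agent.EC.AtP.Node
import Fermat.Agent.EC.AtP.Inertia
import Fermat.Agent.EC.Reduction.GoodPrime

/-!
# Inertia preserves components at a node with a rational point of order two
-/

set_option autoImplicit false

namespace Fermat.Agent.EC.AtP

open WeierstrassCurve Fermat.Agent.Arith Fermat.Agent.EC.Reduction
open scoped WeierstrassCurve.Affine Pointwise

variable {A : ValuationSubring QBar} {σ : GQ}

theorem map_mem_nonunits_of_smul_eq (hσ : σ • A = A) {x : QBar} (hx : x ∈ A.nonunits) :
    σ x ∈ A.nonunits := by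
  have h := (ValuationSubring.mem_nonunits_iff_or A).mp hx
  refine (ValuationSubring.mem_nonunits_iff_or A).mpr (h.imp (fun h => by rw [h, map_zero]) ?_)
  intro hn hm
  rw [← map_inv₀] at hm
  exact hn (by
    have : σ x⁻¹ ∈ σ • A := hσ.symm ▸ hm
    exact (ValuationSubring.smul_mem_pointwise_smul_iff (g := σ)).mp this)

/-- An element of the decomposition group changes a nonzero element by a factor in `A`. -/
theorem map_div_self_mem (hσ : σ • A = A) {x : QBar} (hx : x ≠ 0) : σ x / x ∈ A := by
  by_contra hn
  have hz : x / σ x ∈ A.nonunits := by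
    rw [← inv_div]; exact inv_mem_nonunits hn
  have hk : ∀ k : ℕ, x / (σ ^ (k + 1)) x ∈ A.nonunits := by
    intro k
    induction k with
    | zero => simpa using hz
    | succ k ih =>
      have h2 : σ x / (σ ^ (k + 1 + 1)) x ∈ A.nonunits := by
        rw [pow_succ' σ (k + 1), AlgEquiv.mul_apply, ← map_div₀]
        exact map_mem_nonunits_of_smul_eq hσ ih
      have := nonunits_mul_right hz (mem_of_mem_nonunits h2)
      rwa [div_mul_div_cancel₀ ((map_ne_zero σ).mpr hx)] at this
  obtain ⟨n, hn0, hfix⟩ : ∃ n, 0 < n ∧ (σ ^ n) x = x := by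
    have hint : IsIntegral ℚ x := Algebra.IsIntegral.isIntegral x
    have hfin : Set.Finite {y : QBar | (Polynomial.aeval y) (minpoly ℚ x) = 0} := by
      refine Set.Finite.subset (Polynomial.finite_setOfPred_isRoot
        (Polynomial.map_ne_zero (minpoly.ne_zero hint) (f := algebraMap ℚ QBar))) ?_
      intro y hy
      simpa [Polynomial.IsRoot, Polynomial.eval_map_algebraMap] using hy
    have hmaps : ∀ k : ℕ, (σ ^ k) x ∈ {y : QBar | (Polynomial.aeval y) (minpoly ℚ x) = 0} := by
      intro k
      show (Polynomial.aeval ((σ ^ k) x)) (minpoly ℚ x) = 0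
      rw [Polynomial.aeval_algEquiv, AlgHom.comp_apply, minpoly.aeval, map_zero]
    obtain ⟨i, j, hij, heq⟩ := hfin.exists_lt_map_eq_of_forall_mem (f := fun k => (σ ^ k) x) hmaps
    refine ⟨j - i, by omega, (σ ^ i).injective ?_⟩
    rw [← AlgEquiv.mul_apply, ← pow_add, Nat.add_sub_cancel' hij.le]
    exact heq.symm
  have h1 := hk (n - 1)
  rw [Nat.sub_add_cancel hn0, hfix, div_self hx] at h1
  exact one_notMem_nonunits h1

theorem res_map_div_self_ne_zero (hσ : σ • A = A) {x : QBar} (hx : x ≠ 0) :
    res A (σ x / x) ≠ 0 := by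
  intro h0
  have hm := map_div_self_mem hσ hx
  have hσ' : σ⁻¹ • A = A := by rw [inv_smul_eq_iff]; exact hσ.symm
  have hm' := map_div_self_mem hσ' ((map_ne_zero σ).mpr hx)
  rw [show (σ⁻¹ : GQ) (σ x) = x from σ.symm_apply_apply x] at hm'
  have := congrArg (res A) (div_mul_div_cancel₀ (a := σ x) (c := σ x) hx)
  rw [res_mul hm hm', h0, zero_mul, div_self ((map_ne_zero σ).mpr hx), res_one] at this
  exact zero_ne_one this

variable {W : WeierstrassCurve ℤ} [(W.map (Int.castRingHom ℚ)).IsElliptic]

/-- At a node through a rational point of order two, inertia moves every point within its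
component. -/
theorem smul_sub_inE0_of_node {t u : QBar} (ht : ∀ τ : GQ, τ t = t) (hu : ∀ τ : GQ, τ u = u)
    (hT : TwoTorsionNode A ((W.map (Int.castRingHom ℚ))⁄(AlgebraicClosure ℚ)).toAffine t u)
    (hσ : σ ∈ A.inertiaSubgroupIn ℚ) (P : PointQBar W) :
    InE0 A (redCurve W A) (σ • P - P) := by
  classical
  set WL : Affine QBar := ((W.map (Int.castRingHom ℚ))⁄(AlgebraicClosure ℚ)).toAffine with hWL
  have h := reducesTo_qbar (W := W) A
  have hσA := (Fermat.Agent.EC.Reduction.res_inertia hσ).1
  have hres := (Fermat.Agent.EC.Reduction.res_inertia hσ).2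
  have hφ : ∀ x ∈ A, res A (σ x) = RingHom.id _ (res A x) := hres
  by_cases hP : InE0 A (redCurve W A) P
  · exact (h.mem_E0).mp (h.E0.sub_mem
      ((h.mem_E0).mpr ((h.inE0_smul_iff hσA hφ).mpr hP)) ((h.mem_E0).mpr hP))
  match P with
  | .zero => exact absurd inE0_zero hP
  | .some x y hxy =>
    obtain ⟨hx, hy, hX⟩ := hT.res_eq_of_not_inE0 h hxy hP
    have hns : WL.Nonsingular t u := Affine.equation_iff_nonsingular.mp hT.equation
    have hTfix : σ • (Affine.Point.some t u hns : PointQBar W) = Affine.Point.some t u hns := by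
      simp only [Affine.Point.algEquiv_smul_def, Affine.Point.map_some]
      simp [ht σ, hu σ]
    by_cases hxt : x = t
    · have hy' : y = u := by
        have := hT.shifted_equation hxy.1
        rw [hxt, sub_self] at this
        exact sub_eq_zero.mp (pow_eq_zero_iff two_ne_zero |>.mp (by linear_combination this))
      subst hxt hy'
      rw [show σ • (Affine.Point.some x y hxy : PointQBar W) = Affine.Point.some x y hxy from hTfix,
        sub_self]
      exact inE0_zero
    by_cases hbr : nodeA₄ WL t u / (x - t) ∈ A.nonunits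
    · have ha : ∀ r : ℚ, σ (algebraMap ℚ QBar r) = algebraMap ℚ QBar r := σ.commutes
      have hA₄ : σ (nodeA₄ WL t u) = nodeA₄ WL t u := by
        have h1 : σ WL.a₁ = WL.a₁ := ha (W.map (Int.castRingHom ℚ)).a₁
        have h2 : σ WL.a₂ = WL.a₂ := ha (W.map (Int.castRingHom ℚ)).a₂
        have h4 : σ WL.a₄ = WL.a₄ := ha (W.map (Int.castRingHom ℚ)).a₄
        simp only [nodeA₄, map_sub, map_add, map_mul, map_pow, map_ofNat, ht σ, hu σ, h1, h2, h4]
      have hsub : ∀ z, σ z - t = σ (z - t) := fun z => by rw [map_sub, ht σ]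
      have hXne : x - t ≠ 0 := sub_ne_zero.mpr hxt
      refine hT.sub_inE0_of_branch h hxy _ hxt hX ?_ hbr ?_ ?_ ?_ ?_
      · show σ x - t ∈ A.nonunits
        rw [hsub]; exact map_mem_nonunits_of_smul_eq hσA hX
      · show nodeA₄ WL t u / (σ x - t) ∈ A.nonunits
        rw [hsub, ← hA₄, ← map_div₀]; exact map_mem_nonunits_of_smul_eq hσA hbr
      · show (σ x - t) / (x - t) ∈ A
        rw [hsub]; exact map_div_self_mem hσA hXne
      · show res A ((σ x - t) / (x - t)) ≠ 0
        rw [hsub]; exact res_map_div_self_ne_zero hσA hXne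
      · show res A ((σ y - u) / (σ x - t)) = _
        rw [hsub, show σ y - u = σ (y - u) by rw [map_sub, hu σ], ← map_div₀]
        exact hres _ (hT.branch_slope h hxy.1 hxt hX hbr).1
    · have hQ := hT.add_node_inE0 h hxy hns hxt hbr
      have e : σ • (Affine.Point.some x y hxy : PointQBar W) - Affine.Point.some x y hxy =
          σ • ((Affine.Point.some x y hxy : PointQBar W) + Affine.Point.some t u hns)
            - (Affine.Point.some x y hxy + Affine.Point.some t u hns) := by
        have hadd : σ • ((Affine.Point.some x y hxy : PointQBar W) + Affine.Point.some t u hns) =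
            σ • (Affine.Point.some x y hxy : PointQBar W)
              + σ • (Affine.Point.some t u hns : PointQBar W) :=
          map_add (Affine.Point.map (σ : GQ).toAlgHom) _ _
        rw [hadd, hTfix]; abel
      rw [e]
      exact (h.mem_E0).mp (h.E0.sub_mem
        ((h.mem_E0).mpr ((h.inE0_smul_iff hσA hφ).mpr hQ)) ((h.mem_E0).mpr hQ))

omit [(W.map (Int.castRingHom ℚ)).IsElliptic] in
/-- At a good place inertia trivially preserves components. -/
theorem smul_sub_inE0_of_good {q : ℕ} (hA : A.LiesOverPrime q) (hq : q.Prime)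
    (hΔ : ¬ (q : ℤ) ∣ W.Δ) (P : PointQBar W) : InE0 A (redCurve W A) (σ • P - P) :=
  Fermat.Agent.EC.Reduction.inE0_of_good hA hq hΔ _

omit [(W.map (Int.castRingHom ℚ)).IsElliptic] in
/-- The kernel of reduction has no torsion prime to the residue characteristic. -/
theorem e1TorsionFree (p : ℕ) (hp : p.Prime) : E1TorsionFree W p := by
  classical
  intro q hq hqp A hA P hP hpP
  exact (reducesTo_qbar (W := W) A).eq_zero_of_nsmul_eq_zero
    (valuation_natCast_eq_one hA hq (fun hd => hqp ((Nat.prime_dvd_prime_iff_eq hq hp).mp hd)))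
    hP hpP

end Fermat.Agent.EC.AtP
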